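/-
Project S36, cell [P-EQUIV-2] (helper26; prefix `s36pe_`): THE DEGREES of the two degeneracy maps
between the level fields `F_M(L) ⊆ F_{M q}(L)` (`L` a field of characteristic zero inside `Q̄`),
for EVERY level `M` (in particular for `q ∣ M`):

* `s36pe_relfinrank_alpha_dvd` : `[F_{M q} : F_M] = q` for a prime `q ∣ M`;
* `s36pe_relfinrank_jq`        : `[F_{M q} : L(j(X^q))] = ψ(M q)` (through the Atkin–Lehner
                                  involution `W_q` of level `q`, which swaps `L(j)` and `L(j(X^q))`);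
* `s36pe_psi_mul_relfinrank_beta` : `ψ(M) · [F_{M q} : β_q F_M] = ψ(M q)`;
* `s36pe_relfinrank_beta_dvd`  : `[F_{M q} : β_q F_M] = q` for a prime `q ∣ M`.

No Atkin–Lehner operator at the level `M q` is used.
-/
import Mathlib
import Fermat.Agent.SS.Model.ALE

set_option autoImplicit false
set_option linter.unusedSectionVars false
set_option linter.unusedVariables false
set_option linter.style.haveILetI false

noncomputable section

open ModularCurve IntermediateField
open Fermat.Agent.JT3 Fermat.Agent.S24 Fermat.Agent.S28 Fermat.Agent.SS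

namespace Fermat.Agent.S36

section Alpha

variable (L : Type*) [Field L] [CharZero L] (M q : ℕ) [NeZero M] [NeZero q]

/-- `[F_{M q}(L) : F_M(L)] = q` for a prime `q ∣ M`. -/
theorem s36pe_relfinrank_alpha_dvd (hq : q.Prime) (hqM : q ∣ M) :
    IntermediateField.relfinrank (modularFunctionFieldFullC L M)
      (modularFunctionFieldFullC L (M * q)) = q := by
  have h1 := IntermediateField.relfinrank_mul_relfinrank (ssm_al_j_le L M) (ssm_al_F_le L M q)
  rw [ssm_al_relfinrank_j, ssm_al_relfinrank_j, mul_comm M q,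
    Comb.dedekindPsi_prime_mul_of_dvd hq (NeZero.ne M) hqM, mul_comm q (dedekindPsi M)] at h1
  rw [mul_comm M q]
  exact Nat.eq_of_mul_eq_mul_left (ssm_al_dedekindPsi_pos M) h1

end Alpha

section Beta

variable (L : Type*) [Field L] [CharZero L] [Algebra L (AlgebraicClosure ℚ)]
  (M q : ℕ) [NeZero M] [NeZero q]

/-- `L(j(X^q)) ⊆ F_{M q}(L)` -/
theorem s36pe_jq_le : L⟮qExpand L q (jqModC L)⟯ ≤ modularFunctionFieldFullC L (M * q) :=
  IntermediateField.adjoin_simple_le_iff.mpr (jqModCd_mem_full L (M * q) (Dvd.intro_left M rfl))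

/-- for an intermediate field `A` of `F/L` (`F` an intermediate field of `Ω/L`),
`[F : A.map F.val] = [F : A]`. -/
theorem s36pe_relfinrank_map_val {Ω : Type*} [Field Ω] [Algebra L Ω] (F : IntermediateField L Ω)
    (A : IntermediateField L F) :
    IntermediateField.relfinrank (A.map F.val) F = Module.finrank A F := by
  have h := IntermediateField.relfinrank_map_map A ⊤ F.val
  have htop : (⊤ : IntermediateField L F).map F.val = F := by
    rw [← AlgHom.fieldRange_eq_map, IntermediateField.fieldRange_val]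
  rw [htop, IntermediateField.relfinrank_top_right] at h
  exact h

include M in
/-- `[F_q(L) : L(j(X^q))] = [F_q(L) : L(j)]`, by the Atkin–Lehner involution of level `q`. -/
theorem s36pe_relfinrank_jq_level_q (hq : q.Prime) :
    IntermediateField.relfinrank L⟮qExpand L q (jqModC L)⟯ (modularFunctionFieldFullC L (1 * q)) =
      IntermediateField.relfinrank L⟮jqModC L⟯ (modularFunctionFieldFullC L (1 * q)) := by
  have hq1 : ¬ q ∣ 1 := fun h => hq.one_lt.ne' (Nat.dvd_one.mp h)
  set F : IntermediateField L (LaurentSeries L) := modularFunctionFieldFullC L (1 * q) with hF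
  have hj1 : jqModC L ∈ lg_F L 1 := jqModC_mem_full L 1
  have hjF : jqModC L ∈ F := jqModC_mem_full L (1 * q)
  have hjqF : qExpand L q (jqModC L) ∈ F := ssm_al_expand_mem L 1 q hj1
  set W := ssm_al_W L 1 q hq hq1 with hW
  have hWj : W ⟨jqModC L, hjF⟩ = ⟨qExpand L q (jqModC L), hjqF⟩ :=
    Subtype.ext (ssm_al_coe_W_of_mem L 1 q hq hq1 hj1 hjF)
  -- the two simple subfields inside `F`
  have e1 : (L⟮(⟨jqModC L, hjF⟩ : F)⟯).map F.val = L⟮jqModC L⟯ := by
    rw [IntermediateField.adjoin_map, Set.image_singleton]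
    rfl
  have e2 : (L⟮(⟨qExpand L q (jqModC L), hjqF⟩ : F)⟯).map F.val = L⟮qExpand L q (jqModC L)⟯ := by
    rw [IntermediateField.adjoin_map, Set.image_singleton]
    rfl
  have e3 : (L⟮(⟨jqModC L, hjF⟩ : F)⟯).map (W : F →ₐ[L] F) =
      L⟮(⟨qExpand L q (jqModC L), hjqF⟩ : F)⟯ := by
    rw [IntermediateField.adjoin_map, Set.image_singleton]
    congr 2
  rw [← e1, ← e2, s36pe_relfinrank_map_val, s36pe_relfinrank_map_val, ← e3]
  exact ssm_al_finrank_map_equiv L W _

/-- **`[F_{M q}(L) : L(j(X^q))] = ψ(M q)`**. -/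
theorem s36pe_relfinrank_jq (hq : q.Prime) :
    IntermediateField.relfinrank L⟮qExpand L q (jqModC L)⟯ (modularFunctionFieldFullC L (M * q)) =
      dedekindPsi (M * q) := by
  have hle : modularFunctionFieldFullC L (1 * q) ≤ modularFunctionFieldFullC L (M * q) :=
    full_degeneracyC_le L (mul_dvd_mul_right (one_dvd M) q)
  have h1 := IntermediateField.relfinrank_mul_relfinrank (s36pe_jq_le L 1 q) hle
  have h2 := IntermediateField.relfinrank_mul_relfinrank (ssm_al_j_le L (1 * q)) hle
  rw [s36pe_relfinrank_jq_level_q L M q hq] at h1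
  rw [← h1, h2]
  exact ssm_al_relfinrank_j L (M * q)

/-- `L(j(X^q)) = β_q (L(j))` -/
theorem s36pe_map_j : (L⟮jqModC L⟯).map (qExpandAlgHomC L q) = L⟮qExpand L q (jqModC L)⟯ := by
  rw [IntermediateField.adjoin_map, Set.image_singleton]
  rfl

/-- **`ψ(M) · [F_{M q}(L) : β_q F_M(L)] = ψ(M q)`**, for every level `M`. -/
theorem s36pe_psi_mul_relfinrank_beta (hq : q.Prime) :
    dedekindPsi M * IntermediateField.relfinrank
        ((modularFunctionFieldFullC L M).map (qExpandAlgHomC L q))
        (modularFunctionFieldFullC L (M * q)) = dedekindPsi (M * q) := by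
  have hle1 : L⟮qExpand L q (jqModC L)⟯ ≤
      (modularFunctionFieldFullC L M).map (qExpandAlgHomC L q) := by
    rw [← s36pe_map_j]
    exact IntermediateField.map_mono _ (ssm_al_j_le L M)
  have hle2 : (modularFunctionFieldFullC L M).map (qExpandAlgHomC L q) ≤
      modularFunctionFieldFullC L (M * q) := full_degeneracyC_map_le L M q
  have h1 := IntermediateField.relfinrank_mul_relfinrank hle1 hle2
  have h2 : IntermediateField.relfinrank L⟮qExpand L q (jqModC L)⟯
      ((modularFunctionFieldFullC L M).map (qExpandAlgHomC L q)) = dedekindPsi M := by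
    rw [← s36pe_map_j, IntermediateField.relfinrank_map_map]
    exact ssm_al_relfinrank_j L M
  rw [h2, s36pe_relfinrank_jq L M q hq] at h1
  exact h1

/-- **`[F_{M q}(L) : β_q F_M(L)] = q`** for a prime `q ∣ M`. -/
theorem s36pe_relfinrank_beta_dvd (hq : q.Prime) (hqM : q ∣ M) :
    IntermediateField.relfinrank ((modularFunctionFieldFullC L M).map (qExpandAlgHomC L q))
      (modularFunctionFieldFullC L (M * q)) = q := by
  have h1 := s36pe_psi_mul_relfinrank_beta L M q hq
  rw [mul_comm M q, Comb.dedekindPsi_prime_mul_of_dvd hq (NeZero.ne M) hqM,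
    mul_comm q (dedekindPsi M)] at h1
  rw [mul_comm M q]
  exact Nat.eq_of_mul_eq_mul_left (ssm_al_dedekindPsi_pos M) h1

end Beta

end Fermat.Agent.S36
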