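/-
Project S36, cell [DEG2] (helper26; prefix `s36pe_`): THE DEGREES `q` of the two degeneracy maps on
the RIGIDIFIED towers, for a prime `q` DIVIDING the lower level `N` (S36: `N = N' q`, upper level
`N q = N' q²`), over every field `L` of characteristic zero inside `Q̄`:

Legendre tower (`q` odd), `E₁ = lg_E L N`, `E₂ = lg_E L (N q)`:
* `s36pe_relfinrank_E`      : `[E₂ : E₁] = q`;
* `s36pe_relfinrank_E_beta` : `[E₂ : β_q E₁] = q`  (`β_q = (X ↦ X^q)`; for `N = N' q`, `q ∤ N'`,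
                               `β_q E₁ = W₂ E₁` with `W₂` the Atkin–Lehner involution at `q²`);
* `s36pe_finrank_subE`, `s36pe_finiteDimensional_subE` (`finrank` forms over `ssm_al_subE L N q`),
  `s36pe_subEBeta`, `s36pe_finrank_subEBeta`, `s36pe_finiteDimensional_subEBeta`.

Hesse tower (`3 ∤ q`; in the application `q = 2`), `E₁ = hs_E L h3 N`, `E₂ = hs_E L h3 (N q)`:
* `s36pe_relfinrank_EH`, `s36pe_relfinrank_EH_beta`, `s36pe_finrank_subEH`,
  `s36pe_finiteDimensional_subEH`, `s36pe_subEHBeta`, `s36pe_finrank_subEHBeta`,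
  `s36pe_finiteDimensional_subEHBeta`.
-/
import Mathlib
import Fermat.Agent.S36.PEquiv2.Deg
import Fermat.Agent.SS.Model.ALEHesse
import Fermat.Agent.SS.Model.F9

set_option autoImplicit false
set_option linter.unusedSectionVars false
set_option linter.unusedVariables false
set_option linter.style.haveILetI false

noncomputable section

open ModularCurve IntermediateField
open Fermat.Agent.JT3 Fermat.Agent.S24 Fermat.Agent.S28 Fermat.Agent.SS

namespace Fermat.Agent.S36

/-! ### Legendre tower -/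

section Legendre

variable (L : Type*) [Field L] [CharZero L] (N q : ℕ) [NeZero N] [NeZero q]

omit [NeZero N] [NeZero q] in
theorem s36pe_dvd_f4_level (hqN : q ∣ N) : q ∣ ssm_f4_level N := by
  rw [ssm_f4_level]
  exact (hqN.trans (Dvd.intro_left 2 rfl)).trans (Nat.dvd_lcm_right 4 (2 * N))

/-- **[DEG2], Legendre, `α`-side**: `[lg_E L (N q) : lg_E L N] = q` for an odd prime `q ∣ N`. -/
theorem s36pe_relfinrank_E (hq : q.Prime) (hq2 : ¬ 2 ∣ q) (hqN : q ∣ N) :
    IntermediateField.relfinrank (lg_E L N) (lg_E L (N * q)) = q := by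
  rw [ssm_al_E_eq L N q hq2, ssm_f4 L N]
  exact s36pe_relfinrank_alpha_dvd L (ssm_f4_level N) q hq (s36pe_dvd_f4_level N q hqN)

theorem s36pe_finrank_subE (hq : q.Prime) (hq2 : ¬ 2 ∣ q) (hqN : q ∣ N) :
    Module.finrank (ssm_al_subE L N q) (lg_E L (N * q)) = q := by
  rw [ssm_al_subE, IntermediateField.finrank_comap, IntermediateField.fieldRange_val,
    s36pe_relfinrank_E L N q hq hq2 hqN]

theorem s36pe_finiteDimensional_subE (hq : q.Prime) (hq2 : ¬ 2 ∣ q) (hqN : q ∣ N) :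
    FiniteDimensional (ssm_al_subE L N q) (lg_E L (N * q)) :=
  FiniteDimensional.of_finrank_pos (by rw [s36pe_finrank_subE L N q hq hq2 hqN]; exact hq.pos)

variable [Algebra L (AlgebraicClosure ℚ)]

/-- **[DEG2], Legendre, `β`-side**: `[lg_E L (N q) : β_q (lg_E L N)] = q` for an odd prime
`q ∣ N`. -/
theorem s36pe_relfinrank_E_beta (hq : q.Prime) (hq2 : ¬ 2 ∣ q) (hqN : q ∣ N) :
    IntermediateField.relfinrank ((lg_E L N).map (qExpandAlgHomC L q)) (lg_E L (N * q)) = q := by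
  rw [ssm_al_E_eq L N q hq2, ssm_f4 L N]
  exact s36pe_relfinrank_beta_dvd L (ssm_f4_level N) q hq (s36pe_dvd_f4_level N q hqN)

/-- the second degeneracy image `β_q (lg_E L N)` as an intermediate field of `lg_E L (N q) / L` -/
abbrev s36pe_subEBeta : IntermediateField L (lg_E L (N * q)) :=
  ((lg_E L N).map (qExpandAlgHomC L q)).comap (lg_E L (N * q)).val

omit [Algebra L (AlgebraicClosure ℚ)] in
theorem s36pe_mem_subEBeta (x : lg_E L (N * q)) :
    x ∈ s36pe_subEBeta L N q ↔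
      (x : LaurentSeries L) ∈ (lg_E L N).map (qExpandAlgHomC L q) := Iff.rfl

theorem s36pe_finrank_subEBeta (hq : q.Prime) (hq2 : ¬ 2 ∣ q) (hqN : q ∣ N) :
    Module.finrank (s36pe_subEBeta L N q) (lg_E L (N * q)) = q := by
  rw [s36pe_subEBeta, IntermediateField.finrank_comap, IntermediateField.fieldRange_val,
    s36pe_relfinrank_E_beta L N q hq hq2 hqN]

theorem s36pe_finiteDimensional_subEBeta (hq : q.Prime) (hq2 : ¬ 2 ∣ q) (hqN : q ∣ N) :
    FiniteDimensional (s36pe_subEBeta L N q) (lg_E L (N * q)) :=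
  FiniteDimensional.of_finrank_pos
    (by rw [s36pe_finrank_subEBeta L N q hq hq2 hqN]; exact hq.pos)

end Legendre

/-! ### Hesse tower -/

section Hesse

variable (L : Type*) [Field L] [CharZero L] (h3 : (3 : L) ≠ 0) (N q : ℕ) [NeZero N] [NeZero q]

theorem s36pe_hF9 :
    ∀ (M : ℕ) [NeZero M], hs_E L h3 M = modularFunctionFieldFullC L (Nat.lcm 9 (3 * M)) :=
  fun M _ => ssm_f9' L h3 M

omit [NeZero N] [NeZero q] in
theorem s36pe_dvd_alh_level (hqN : q ∣ N) : q ∣ ssm_alh_level N :=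
  hqN.trans (ssm_alh_dvd_level N)

/-- **[DEG2], Hesse, `α`-side**: `[hs_E L h3 (N q) : hs_E L h3 N] = q` for a prime `q ≠ 3`,
`q ∣ N`. -/
theorem s36pe_relfinrank_EH (hq : q.Prime) (hq3 : ¬ 3 ∣ q) (hqN : q ∣ N) :
    IntermediateField.relfinrank (hs_E L h3 N) (hs_E L h3 (N * q)) = q := by
  rw [ssm_alh_E_eq L h3 (s36pe_hF9 L h3) N q hq3, ssm_alh_E_eq_level L h3 (s36pe_hF9 L h3) N]
  exact s36pe_relfinrank_alpha_dvd L (ssm_alh_level N) q hq (s36pe_dvd_alh_level N q hqN)

theorem s36pe_finrank_subEH (hq : q.Prime) (hq3 : ¬ 3 ∣ q) (hqN : q ∣ N) :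
    Module.finrank (ssm_alh_subE L h3 N q) (hs_E L h3 (N * q)) = q := by
  rw [ssm_alh_subE, IntermediateField.finrank_comap, IntermediateField.fieldRange_val,
    s36pe_relfinrank_EH L h3 N q hq hq3 hqN]

theorem s36pe_finiteDimensional_subEH (hq : q.Prime) (hq3 : ¬ 3 ∣ q) (hqN : q ∣ N) :
    FiniteDimensional (ssm_alh_subE L h3 N q) (hs_E L h3 (N * q)) :=
  FiniteDimensional.of_finrank_pos (by rw [s36pe_finrank_subEH L h3 N q hq hq3 hqN]; exact hq.pos)

variable [Algebra L (AlgebraicClosure ℚ)]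

/-- **[DEG2], Hesse, `β`-side**: `[hs_E L h3 (N q) : β_q (hs_E L h3 N)] = q` for a prime `q ≠ 3`,
`q ∣ N`. -/
theorem s36pe_relfinrank_EH_beta (hq : q.Prime) (hq3 : ¬ 3 ∣ q) (hqN : q ∣ N) :
    IntermediateField.relfinrank ((hs_E L h3 N).map (qExpandAlgHomC L q)) (hs_E L h3 (N * q)) =
      q := by
  rw [ssm_alh_E_eq L h3 (s36pe_hF9 L h3) N q hq3, ssm_alh_E_eq_level L h3 (s36pe_hF9 L h3) N]
  exact s36pe_relfinrank_beta_dvd L (ssm_alh_level N) q hq (s36pe_dvd_alh_level N q hqN)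

/-- the second degeneracy image `β_q (hs_E L h3 N)` as an intermediate field of
`hs_E L h3 (N q) / L` -/
abbrev s36pe_subEHBeta : IntermediateField L (hs_E L h3 (N * q)) :=
  ((hs_E L h3 N).map (qExpandAlgHomC L q)).comap (hs_E L h3 (N * q)).val

omit [Algebra L (AlgebraicClosure ℚ)] in
theorem s36pe_mem_subEHBeta (x : hs_E L h3 (N * q)) :
    x ∈ s36pe_subEHBeta L h3 N q ↔
      (x : LaurentSeries L) ∈ (hs_E L h3 N).map (qExpandAlgHomC L q) := Iff.rfl

theorem s36pe_finrank_subEHBeta (hq : q.Prime) (hq3 : ¬ 3 ∣ q) (hqN : q ∣ N) :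
    Module.finrank (s36pe_subEHBeta L h3 N q) (hs_E L h3 (N * q)) = q := by
  rw [s36pe_subEHBeta, IntermediateField.finrank_comap, IntermediateField.fieldRange_val,
    s36pe_relfinrank_EH_beta L h3 N q hq hq3 hqN]

theorem s36pe_finiteDimensional_subEHBeta (hq : q.Prime) (hq3 : ¬ 3 ∣ q) (hqN : q ∣ N) :
    FiniteDimensional (s36pe_subEHBeta L h3 N q) (hs_E L h3 (N * q)) :=
  FiniteDimensional.of_finrank_pos
    (by rw [s36pe_finrank_subEHBeta L h3 N q hq hq3 hqN]; exact hq.pos)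

end Hesse

end Fermat.Agent.S36
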