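/-
Project S36, cell [P-EQUIV-2] (helper26; prefix `s36pe_`): THE TOWER IDENTITIES for the level pair
`(A q, A)` with `q ∣ A` (twin of S35/PEquiv/Inst.lean, which treats `q ∤ A ℓ`).

For `q` prime, `q ∣ A`, `ℓ ≠ q` prime and `g ∈ F̄_{A q}`:

* `s36pe_norm_comm_alpha` :
    `N_{α_q^A} (N_{α_ℓ^{Aq}} (β_ℓ^{Aq} g)) = N_{α_ℓ^A} (β_ℓ^A (N_{α_q^A} g))`,
* `s36pe_norm_comm_beta`  :
    `N_{β_q^A} (N_{α_ℓ^{Aq}} (β_ℓ^{Aq} g)) = N_{α_ℓ^A} (β_ℓ^A (N_{β_q^A} g))`.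

The degrees on both floors are `q` (S36/PEquiv2/Deg.lean).  The generation statement of the `β`-case,
`F̄_{A q ℓ} = β_q(F̄_{A ℓ}) · β_ℓ(F̄_{A q})`, is proved WITHOUT an Atkin–Lehner operator of level
`A q ℓ`: the compositum contains `j(X^q)`, `j(X^ℓ)`, and `Q̄(j(X^q), j(X^ℓ)) = W_q (F̄_{ℓ q}) = F̄_{ℓ q}`
contains `j` (`W_q` = the Atkin–Lehner involution of level `ℓ q`, `q ∤ ℓ`); `s36pe_gen_beta` holds
for every `A`.
-/
import Mathlib
import Fermat.Agent.S35.PEquiv.Inst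
import Fermat.Agent.S36.PEquiv2.Deg

set_option autoImplicit false
set_option linter.unusedSectionVars false
set_option linter.unusedVariables false
set_option linter.style.haveILetI false

noncomputable section

namespace Fermat.Agent.S36

open AlgebraicCurve ModularCurve Module
open Fermat.Agent.S24 Fermat.Agent.JT3 Fermat.Agent.SS Fermat.Agent.S35

section Ambient

variable {K Ω : Type*} [Field K] [Field Ω] [Algebra K Ω]
variable (eq eℓ : Ω →ₐ[K] Ω) (hcomm : ∀ x, eq (eℓ x) = eℓ (eq x))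
variable (F₀ F₁ F₂ F₃ : IntermediateField K Ω)
variable (h01 : F₀ ≤ F₁) (h13 : F₁ ≤ F₃) (h02 : F₀ ≤ F₂) (h23 : F₂ ≤ F₃)
variable (hℓ02 : ∀ x ∈ F₀, eℓ x ∈ F₂) (hℓ13 : ∀ x ∈ F₁, eℓ x ∈ F₃)
variable (hq01 : ∀ x ∈ F₀, eq x ∈ F₁) (hq23 : ∀ x ∈ F₂, eq x ∈ F₃)

include hcomm h01 h13 h02 h23 hℓ02 hℓ13 hq01 hq23 in
/-- **the `β`-case of the square identity, with the generation statement as a hypothesis** -/
theorem s36pe_norm_ambient_beta {d : ℕ} (hd : 0 < d)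
    (hd01 : IntermediateField.relfinrank (F₀.map eq) F₁ = d)
    (hd23 : IntermediateField.relfinrank (F₂.map eq) F₃ = d)
    (hgen : ∀ S : Subfield F₃, (∀ x : F₂, s35pe_res eq F₂ F₃ hq23 x ∈ S) →
      (∀ y : F₁, s35pe_res eℓ F₁ F₃ hℓ13 y ∈ S) → S = ⊤) (g : F₁) :
    s35pe_normAlong (s35pe_res eq F₀ F₁ hq01)
        (s35pe_normAlong (IntermediateField.inclusion h13) (s35pe_res eℓ F₁ F₃ hℓ13 g)) =
      s35pe_normAlong (IntermediateField.inclusion h02)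
        (s35pe_res eℓ F₀ F₂ hℓ02 (s35pe_normAlong (s35pe_res eq F₀ F₁ hq01) g)) := by
  refine s35pe_norm_square (s35pe_res eq F₀ F₁ hq01) (IntermediateField.inclusion h13)
    (IntermediateField.inclusion h02) (s35pe_res eq F₂ F₃ hq23)
    (s35pe_res eℓ F₀ F₂ hℓ02 : F₀ →+* F₂) (s35pe_res eℓ F₁ F₃ hℓ13 : F₁ →+* F₃)
    (AlgHom.ext fun _ => Subtype.ext rfl) (fun x => Subtype.ext (hcomm x).symm) ?_ ?_
    (fun S h2 h1 => hgen S h2 h1) g
  · rw [s35pe_finrankAlong_res, hd01]; exact hd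
  · rw [s35pe_finrankAlong_res, s35pe_finrankAlong_res, hd01, hd23]

end Ambient

section Levels

variable (A q ℓ : ℕ) [NeZero A] [NeZero q] [NeZero ℓ]

theorem s36pe_relfinrank_alpha (hq : q.Prime) (M : ℕ) [NeZero M] (hqM : q ∣ M) :
    IntermediateField.relfinrank (s35pe_FL M) (s35pe_FL (M * q)) = q := by
  rw [s35pe_FL_eq, s35pe_FL_eq]
  exact s36pe_relfinrank_alpha_dvd Kbar M q hq hqM

theorem s36pe_relfinrank_beta (hq : q.Prime) (M : ℕ) [NeZero M] (hqM : q ∣ M) :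
    IntermediateField.relfinrank ((s35pe_FL M).map (qExpandAlgHomC Kbar q)) (s35pe_FL (M * q)) =
      q := by
  rw [s35pe_FL_eq, s35pe_FL_eq]
  exact s36pe_relfinrank_beta_dvd Kbar M q hq hqM

/-- **the `α`-identity for `q ∣ A`** -/
theorem s36pe_norm_comm_alpha (hq : q.Prime) (hqA : q ∣ A) (g : Fbar (A * q)) :
    s35pe_normAlong (heckeAlphaBar Kbar A q)
        (s35pe_normAlong (heckeAlphaBar Kbar (A * q) ℓ) (heckeBetaBar Kbar (A * q) ℓ g)) =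
      s35pe_normAlong (heckeAlphaBar Kbar A ℓ)
        (heckeBetaBar Kbar A ℓ (s35pe_normAlong (heckeAlphaBar Kbar A q) g)) := by
  have hcongr : s35pe_FL (A * ℓ * q) = s35pe_FL (A * q * ℓ) :=
    s35pe_FL_congr (Nat.mul_right_comm A ℓ q)
  have hd23 : IntermediateField.relfinrank (s35pe_FL (A * ℓ)) (s35pe_FL (A * q * ℓ)) = q := by
    rw [← hcongr]
    exact s36pe_relfinrank_alpha q hq (A * ℓ) (hqA.mul_right ℓ)
  rw [s35pe_alpha_eq, s35pe_alpha_eq, s35pe_alpha_eq, s35pe_beta_eq, s35pe_beta_eq]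
  exact s35pe_norm_ambient_alpha (qExpandAlgHomC Kbar ℓ) (s35pe_FL A) (s35pe_FL (A * q))
    (s35pe_FL (A * ℓ)) (s35pe_FL (A * q * ℓ)) _ _ _
    (s35pe_FL_mono ⟨q, (Nat.mul_right_comm A ℓ q).symm⟩) _ _ hq.pos
    (s36pe_relfinrank_alpha q hq A hqA) hd23 (s35pe_FL_adjoin_pair (A * q * ℓ))
    (s35pe_top_gen A q ℓ) g

/-- **generation in the `β`-case, for every `A`**: a subfield of `F̄_{A q ℓ}` containing
`β_q (F̄_{A ℓ})` and `β_ℓ (F̄_{A q})` is everything (`q ≠ ℓ` primes). -/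
theorem s36pe_gen_beta (hq : q.Prime) (hℓ : ℓ.Prime) (hqℓ : q ≠ ℓ)
    (hq23 : ∀ x ∈ s35pe_FL (A * ℓ), qExpandAlgHomC Kbar q x ∈ s35pe_FL (A * q * ℓ))
    (hℓ13 : ∀ x ∈ s35pe_FL (A * q), qExpandAlgHomC Kbar ℓ x ∈ s35pe_FL (A * q * ℓ))
    (S : Subfield (s35pe_FL (A * q * ℓ)))
    (h2 : ∀ x : s35pe_FL (A * ℓ),
      s35pe_res (qExpandAlgHomC Kbar q) (s35pe_FL (A * ℓ)) (s35pe_FL (A * q * ℓ)) hq23 x ∈ S)
    (h1 : ∀ y : s35pe_FL (A * q),
      s35pe_res (qExpandAlgHomC Kbar ℓ) (s35pe_FL (A * q)) (s35pe_FL (A * q * ℓ)) hℓ13 y ∈ S) :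
    S = ⊤ := by
  have hqℓ' : ¬ q ∣ ℓ := fun h => hqℓ ((Nat.prime_dvd_prime_iff_eq hq hℓ).mp h)
  -- constants
  have hK : ∀ c : Kbar, algebraMap Kbar (s35pe_FL (A * q * ℓ)) c ∈ S := fun c => by
    have := h2 (algebraMap Kbar (s35pe_FL (A * ℓ)) c)
    rwa [AlgHom.commutes] at this
  -- `j(X^q)` and `j(X^ℓ)` lie in `S`
  have hjq : ∀ h : qExpand Kbar q (jqModC Kbar) ∈ s35pe_FL (A * q * ℓ),
      (⟨qExpand Kbar q (jqModC Kbar), h⟩ : s35pe_FL (A * q * ℓ)) ∈ S := fun h => by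
    have := h2 ⟨jqModC Kbar, s35pe_j_mem (A * ℓ)⟩
    exact this
  have hjℓ : ∀ h : qExpand Kbar ℓ (jqModC Kbar) ∈ s35pe_FL (A * q * ℓ),
      (⟨qExpand Kbar ℓ (jqModC Kbar), h⟩ : s35pe_FL (A * q * ℓ)) ∈ S := fun h => by
    have := h1 ⟨jqModC Kbar, s35pe_j_mem (A * q)⟩
    exact this
  -- the level-`ℓ q` field inside the top field
  have hle : lg_F Kbar (ℓ * q) ≤ s35pe_FL (A * q * ℓ) := by
    rw [s35pe_FL_eq]
    exact full_degeneracyC_le Kbar ⟨A, by ring⟩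
  set W := ssm_al_W Kbar ℓ q hq hqℓ' with hW
  set T : Subfield (lg_F Kbar (ℓ * q)) :=
    S.comap (IntermediateField.inclusion hle : lg_F Kbar (ℓ * q) →+* s35pe_FL (A * q * ℓ)) with hT
  set T' : Subfield (lg_F Kbar (ℓ * q)) :=
    T.comap ((W : lg_F Kbar (ℓ * q) →ₐ[Kbar] lg_F Kbar (ℓ * q)) :
      lg_F Kbar (ℓ * q) →+* lg_F Kbar (ℓ * q)) with hT'
  have hj1 : jqModC Kbar ∈ lg_F Kbar ℓ := jqModC_mem_full Kbar ℓ
  have hjℓ1 : qExpand Kbar ℓ (jqModC Kbar) ∈ lg_F Kbar ℓ := jqModCd_mem_full Kbar ℓ dvd_rfl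
  have hT'top : T' = ⊤ := by
    refine s35pe_subfield_eq_top (ssm_al_F_eq_adjoin_pair Kbar (ℓ * q)) T' (fun c => ?_)
      fun x hx h => ?_
    · show (IntermediateField.inclusion hle (W (algebraMap Kbar (lg_F Kbar (ℓ * q)) c))) ∈ S
      rw [AlgEquiv.commutes, AlgHom.commutes]
      exact hK c
    · rcases hx with rfl | rfl
      · -- `W j = j(X^q)`
        show (IntermediateField.inclusion hle (W ⟨jqModC Kbar, h⟩)) ∈ S
        have e : W ⟨jqModC Kbar, h⟩ =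
            ⟨qExpand Kbar q (jqModC Kbar), ssm_al_expand_mem Kbar ℓ q hj1⟩ :=
          Subtype.ext (ssm_al_coe_W_of_mem Kbar ℓ q hq hqℓ' hj1 h)
        rw [e]
        exact hjq _
      · -- `W j(X^{ℓ q}) = j(X^ℓ)`
        show (IntermediateField.inclusion hle (W ⟨qExpand Kbar (ℓ * q) (jqModC Kbar), h⟩)) ∈ S
        have e0 : qExpand Kbar (ℓ * q) (jqModC Kbar) =
            qExpand Kbar q (qExpand Kbar ℓ (jqModC Kbar)) := by
          rw [qExpand_qExpand]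
          exact qExpand_congr (mul_comm ℓ q) _
        have h' : qExpand Kbar q (qExpand Kbar ℓ (jqModC Kbar)) ∈ lg_F Kbar (ℓ * q) := e0 ▸ h
        have e1 : (⟨qExpand Kbar (ℓ * q) (jqModC Kbar), h⟩ : lg_F Kbar (ℓ * q)) =
            ⟨qExpand Kbar q (qExpand Kbar ℓ (jqModC Kbar)), h'⟩ := Subtype.ext e0
        have e : W ⟨qExpand Kbar q (qExpand Kbar ℓ (jqModC Kbar)), h'⟩ =
            ⟨qExpand Kbar ℓ (jqModC Kbar), ssm_al_mem_of_mem Kbar ℓ q hjℓ1⟩ :=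
          Subtype.ext (ssm_al_coe_W_expand_of_mem Kbar ℓ q hq hqℓ' hjℓ1 h')
        rw [e1, e]
        exact hjℓ _
  -- hence `j = W (j(X^q)) ∈ S`
  have hj : ∀ h : jqModC Kbar ∈ s35pe_FL (A * q * ℓ),
      (⟨jqModC Kbar, h⟩ : s35pe_FL (A * q * ℓ)) ∈ S := fun h => by
    have hmem : (⟨qExpand Kbar q (jqModC Kbar), ssm_al_expand_mem Kbar ℓ q hj1⟩ :
        lg_F Kbar (ℓ * q)) ∈ T' := by rw [hT'top]; trivial
    have e : W ⟨qExpand Kbar q (jqModC Kbar), ssm_al_expand_mem Kbar ℓ q hj1⟩ =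
        ⟨jqModC Kbar, ssm_al_mem_of_mem Kbar ℓ q hj1⟩ :=
      Subtype.ext (ssm_al_coe_W_expand_of_mem Kbar ℓ q hq hqℓ' hj1 _)
    have h3 : (IntermediateField.inclusion hle
        (W ⟨qExpand Kbar q (jqModC Kbar), ssm_al_expand_mem Kbar ℓ q hj1⟩)) ∈ S := hmem
    rw [e] at h3
    exact h3
  -- conclusion
  refine s35pe_subfield_eq_top (s35pe_FL_adjoin_pair (A * q * ℓ)) S hK fun x hx h => ?_
  rcases hx with rfl | rfl
  · exact hj h
  · have := h1 ⟨qExpand Kbar (A * q) (jqModC Kbar), s35pe_jd_mem (A * q) dvd_rfl⟩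
    have e : (⟨qExpand Kbar (A * q * ℓ) (jqModC Kbar), h⟩ : s35pe_FL (A * q * ℓ)) =
        s35pe_res (qExpandAlgHomC Kbar ℓ) (s35pe_FL (A * q)) (s35pe_FL (A * q * ℓ)) hℓ13
          ⟨qExpand Kbar (A * q) (jqModC Kbar), s35pe_jd_mem (A * q) dvd_rfl⟩ := by
      apply Subtype.ext
      show qExpand Kbar (A * q * ℓ) (jqModC Kbar) =
        qExpandAlgHomC Kbar ℓ (qExpand Kbar (A * q) (jqModC Kbar))
      rw [qExpandAlgHomC_apply, qExpand_qExpand]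
      exact qExpand_congr (mul_comm (A * q) ℓ) _
    rw [e]
    exact this

/-- **the `β`-identity for `q ∣ A`** -/
theorem s36pe_norm_comm_beta (hq : q.Prime) (hℓ : ℓ.Prime) (hqℓ : q ≠ ℓ) (hqA : q ∣ A)
    (g : Fbar (A * q)) :
    s35pe_normAlong (heckeBetaBar Kbar A q)
        (s35pe_normAlong (heckeAlphaBar Kbar (A * q) ℓ) (heckeBetaBar Kbar (A * q) ℓ g)) =
      s35pe_normAlong (heckeAlphaBar Kbar A ℓ)
        (heckeBetaBar Kbar A ℓ (s35pe_normAlong (heckeBetaBar Kbar A q) g)) := by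
  have hcongr : s35pe_FL (A * ℓ * q) = s35pe_FL (A * q * ℓ) :=
    s35pe_FL_congr (Nat.mul_right_comm A ℓ q)
  have hd01 : IntermediateField.relfinrank ((s35pe_FL A).map (qExpandAlgHomC Kbar q))
      (s35pe_FL (A * q)) = q := s36pe_relfinrank_beta q hq A hqA
  have hd23 : IntermediateField.relfinrank
      ((s35pe_FL (A * ℓ)).map (qExpandAlgHomC Kbar q)) (s35pe_FL (A * q * ℓ)) = q := by
    rw [← hcongr]
    exact s36pe_relfinrank_beta q hq (A * ℓ) (hqA.mul_right ℓ)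
  have h01 : s35pe_FL A ≤ s35pe_FL (A * q) := s35pe_FL_mono (Dvd.intro q rfl)
  have h23 : s35pe_FL (A * ℓ) ≤ s35pe_FL (A * q * ℓ) :=
    s35pe_FL_mono ⟨q, (Nat.mul_right_comm A ℓ q).symm⟩
  have hq23 : ∀ x ∈ s35pe_FL (A * ℓ), qExpandAlgHomC Kbar q x ∈ s35pe_FL (A * q * ℓ) :=
    fun _ hx => s35pe_FL_expand (dvd_of_eq (Nat.mul_right_comm A ℓ q)) hx
  rw [s35pe_alpha_eq, s35pe_alpha_eq, s35pe_beta_eq, s35pe_beta_eq, s35pe_beta_eq]
  exact s36pe_norm_ambient_beta (qExpandAlgHomC Kbar q) (qExpandAlgHomC Kbar ℓ)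
    (s35pe_qExpand_comm q ℓ) (s35pe_FL A) (s35pe_FL (A * q))
    (s35pe_FL (A * ℓ)) (s35pe_FL (A * q * ℓ)) h01 _ _ h23 _ _ _ hq23
    hq.pos hd01 hd23
    (fun S h2 h1 => s36pe_gen_beta A q ℓ hq hℓ hqℓ hq23 _ S h2 h1) g

end Levels

end Fermat.Agent.S36
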